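import Fermat.Agent.Tau.EuclideanFields
import Fermat.Agent.ExtVanish.Residue
import Fermat.Agent.Monsky.Families
import Mathlib.RingTheory.Ideal.Norm.RelNorm

/-!
# The classes of the ramified ideals

For `n` squarefree, `K` quadratic and `s² = -n` the ideal `(u, s)`, `u ∣ n`, has square `(u)`.
Its class is trivial only for `u = 1` and `u = n` (`n > 3`), and an ideal times its conjugate is
principal.
-/

set_option autoImplicit false
set_option linter.style.haveILetI false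

noncomputable section

open NumberField Module
open scoped Classical Pointwise nonZeroDivisors

namespace FA.RedeiReichardt

variable {K : Type*} [Field K] [NumberField K] {n : ℕ} {s : 𝓞 K}

/-- `(u, s)`. -/
def ramIdeal (s : 𝓞 K) (u : ℕ) : Ideal (𝓞 K) := Ideal.span {(u : 𝓞 K), s}

/-- Its class. -/
def ramClass (s : 𝓞 K) (u : ℕ) : ClassGroup (𝓞 K) :=
  if h : ramIdeal s u ∈ (Ideal (𝓞 K))⁰ then ClassGroup.mk0 ⟨ramIdeal s u, h⟩ else 1

theorem sqrt_ne_zero (hn : n ≠ 0) (hs : s ^ 2 = -(n : 𝓞 K)) : s ≠ 0 := fun h => by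
  rw [h, zero_pow two_ne_zero, eq_comm, neg_eq_zero, Nat.cast_eq_zero] at hs
  exact hn hs

theorem coe_sqrt (hs : s ^ 2 = -(n : 𝓞 K)) : (s : K) ^ 2 = ((-(n : ℤ) : ℤ) : K) := by
  rw [← map_pow, hs, map_neg, map_natCast, Int.cast_neg, Int.cast_natCast]

theorem ramIdeal_ne (hn : n ≠ 0) (hs : s ^ 2 = -(n : 𝓞 K)) (u : ℕ) : ramIdeal s u ≠ ⊥ := fun h =>
  sqrt_ne_zero hn hs (by
    have : s ∈ ramIdeal s u := Ideal.subset_span (by simp)
    rw [h] at this
    exact Ideal.mem_bot.mp this)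

theorem ramClass_eq (hn : n ≠ 0) (hs : s ^ 2 = -(n : 𝓞 K)) (u : ℕ) :
    ramClass s u = ClassGroup.mk0 ⟨ramIdeal s u,
      mem_nonZeroDivisors_iff_ne_zero.mpr (ramIdeal_ne hn hs u)⟩ :=
  dif_pos _

/-- Coprime divisors multiply. -/
theorem ramIdeal_mul (hs : s ^ 2 = -(n : 𝓞 K)) {a b : ℕ} (hab : a * b ∣ n)
    (hco : a.Coprime b) : ramIdeal s (a * b) = ramIdeal s a * ramIdeal s b := by
  obtain ⟨c, hc⟩ := hab
  obtain ⟨x, y, hxy⟩ := (Int.isCoprime_iff_nat_coprime (a := (a : ℤ)) (b := (b : ℤ))).mpr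
    (by simpa using hco)
  rw [ramIdeal, ramIdeal, ramIdeal, Ideal.span_pair_mul_span_pair]
  refine le_antisymm ?_ ?_
  · rw [Ideal.span_le]
    have hm : ∀ z ∈ ({(a : 𝓞 K) * b, (a : 𝓞 K) * s, s * b, s * s} : Set (𝓞 K)),
        z ∈ Ideal.span ({(a : 𝓞 K) * b, (a : 𝓞 K) * s, s * b, s * s} : Set (𝓞 K)) :=
      fun z hz => Ideal.subset_span hz
    rintro z (rfl | hz)
    · rw [Nat.cast_mul]
      exact hm _ (by simp)
    · have e : s = (x : 𝓞 K) * ((a : 𝓞 K) * s) + (y : 𝓞 K) * (s * b) := by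
        have h1 : (x : 𝓞 K) * (a : 𝓞 K) + (y : 𝓞 K) * (b : 𝓞 K) = 1 := by exact_mod_cast hxy
        linear_combination -s * h1
      have := add_mem (Ideal.mul_mem_left _ (x : 𝓞 K) (hm ((a : 𝓞 K) * s) (by simp)))
        (Ideal.mul_mem_left _ (y : 𝓞 K) (hm (s * b) (by simp)))
      rw [← e] at this
      rw [Set.mem_singleton_iff.mp hz]
      exact this
  · rw [Ideal.span_le]
    rintro z (rfl | rfl | rfl | rfl) <;> rw [SetLike.mem_coe, Ideal.mem_span_pair]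
    · exact ⟨1, 0, by push_cast; ring⟩
    · exact ⟨0, a, by ring⟩
    · exact ⟨0, b, by ring⟩
    · exact ⟨-(c : 𝓞 K), 0, by
        have hc' : (n : 𝓞 K) = (a : 𝓞 K) * b * c := by exact_mod_cast hc
        push_cast
        linear_combination -hs + hc'⟩

theorem ramIdeal_sq (hn : Squarefree n) (hs : s ^ 2 = -(n : 𝓞 K)) {u : ℕ} (hu : u ∣ n) :
    ramIdeal s u ^ 2 = Ideal.span {(u : 𝓞 K)} := by
  obtain ⟨c, hc⟩ := hu
  have hco : u.Coprime c := Nat.coprime_of_squarefree_mul (hc ▸ hn)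
  obtain ⟨x, y, hxy⟩ := (Int.isCoprime_iff_nat_coprime (a := (u : ℤ)) (b := (c : ℤ))).mpr
    (by simpa using hco)
  have h1 : (x : 𝓞 K) * (u : 𝓞 K) + (y : 𝓞 K) * (c : 𝓞 K) = 1 := by exact_mod_cast hxy
  have hc' : (n : 𝓞 K) = (u : 𝓞 K) * c := by exact_mod_cast hc
  rw [ramIdeal, sq, Ideal.span_pair_mul_span_pair]
  refine le_antisymm ?_ ?_
  · rw [Ideal.span_le]
    rintro z (rfl | rfl | rfl | rfl) <;> rw [SetLike.mem_coe, Ideal.mem_span_singleton]
    · exact dvd_mul_right _ _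
    · exact dvd_mul_right _ _
    · exact dvd_mul_left _ _
    · exact ⟨-(c : 𝓞 K), by linear_combination hs - hc'⟩
  · rw [Ideal.span_singleton_le_iff_mem]
    have e : (u : 𝓞 K) = (x : 𝓞 K) * ((u : 𝓞 K) * u) - (y : 𝓞 K) * (s * s) := by
      linear_combination -(u : 𝓞 K) * h1 + (y : 𝓞 K) * hs - (y : 𝓞 K) * hc'
    have hm : ∀ z ∈ ({(u : 𝓞 K) * u, (u : 𝓞 K) * s, s * u, s * s} : Set (𝓞 K)),
        z ∈ Ideal.span ({(u : 𝓞 K) * u, (u : 𝓞 K) * s, s * u, s * s} : Set (𝓞 K)) :=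
      fun z hz => Ideal.subset_span hz
    have := sub_mem (Ideal.mul_mem_left _ (x : 𝓞 K) (hm ((u : 𝓞 K) * u) (by simp)))
      (Ideal.mul_mem_left _ (y : 𝓞 K) (hm (s * s) (by simp)))
    rw [← e] at this
    exact this

theorem absNorm_ramIdeal (hK : finrank ℚ K = 2) (hn : Squarefree n) (hs : s ^ 2 = -(n : 𝓞 K))
    {u : ℕ} (hu : u ∣ n) : Ideal.absNorm (ramIdeal s u) = u := by
  refine Nat.pow_left_injective two_ne_zero ?_
  show Ideal.absNorm (ramIdeal s u) ^ 2 = u ^ 2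
  rw [← map_pow, ramIdeal_sq hn hs hu, Ideal.absNorm_span_singleton,
    show (u : 𝓞 K) = algebraMap ℤ (𝓞 K) (u : ℤ) by simp, Algebra.norm_algebraMap,
    RingOfIntegers.rank, hK, Int.natAbs_pow, Int.natAbs_natCast]

theorem ramClass_sq (hn : Squarefree n) (hs : s ^ 2 = -(n : 𝓞 K)) {u : ℕ} (hu : u ∣ n) :
    ramClass s u * ramClass s u = 1 := by
  rw [ramClass_eq hn.ne_zero hs, ← map_mul, ClassGroup.mk0_eq_one_iff]
  exact ⟨⟨(u : 𝓞 K), by
    show ramIdeal s u * ramIdeal s u = _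
    rw [← sq, ramIdeal_sq hn hs hu]⟩⟩

/-- Common divisors cancel. -/
theorem ramClass_mul (hn : Squarefree n) (hs : s ^ 2 = -(n : 𝓞 K)) {g a b : ℕ}
    (h : g * a * b ∣ n) : ramClass s (g * a) * ramClass s (g * b) = ramClass s (a * b) := by
  have hga : g * a ∣ n := dvd_of_mul_right_dvd h
  have hgb : g * b ∣ n := dvd_trans ⟨a, by ring⟩ h
  have hab : a * b ∣ n := dvd_trans ⟨g, by ring⟩ h
  have key : ∀ x y, x * y ∣ n → ramClass s (x * y) = ramClass s x * ramClass s y :=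
    fun x y hxy => by
    rw [ramClass_eq hn.ne_zero hs, ramClass_eq hn.ne_zero hs, ramClass_eq hn.ne_zero hs,
      ← map_mul]
    exact congrArg _ (Subtype.ext (ramIdeal_mul hs hxy
      (Nat.coprime_of_squarefree_mul (hn.squarefree_of_dvd hxy))))
  rw [key g a hga, key g b hgb, key a b hab, mul_mul_mul_comm,
    ramClass_sq hn hs (dvd_of_mul_right_dvd hga), one_mul]

/-- The norm of an integer is non-negative and a quarter of a value of `x² + n y²`. -/
theorem exists_norm_eq (hK : finrank ℚ K = 2) (hn : Squarefree n) (hs : s ^ 2 = -(n : 𝓞 K))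
    (r : 𝓞 K) : ∃ A B : ℤ, A ^ 2 + n * B ^ 2 = 4 * Algebra.norm ℤ r := by
  obtain ⟨A, B, -, h⟩ := FA.Euclidean.exists_coord_norm hK (d := -(n : ℤ))
    (Int.squarefree_natAbs.mp (by simpa using hn))
    (neg_lt_zero.mpr (Int.natCast_pos.mpr hn.ne_zero.bot_lt)) (coe_sqrt hs) r
  exact ⟨A, B, by rw [← h]; ring⟩

/-- **Only `1` and `n` give the trivial class.** -/
theorem ramClass_eq_one_iff (hK : finrank ℚ K = 2) (hn : Squarefree n) (hodd : Odd n) (h3 : 3 < n)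
    (hs : s ^ 2 = -(n : 𝓞 K)) {u : ℕ} (hu : u ∣ n) : ramClass s u = 1 ↔ u = 1 ∨ u = n := by
  rw [ramClass_eq hn.ne_zero hs, ClassGroup.mk0_eq_one_iff]
  constructor
  · rintro ⟨β, hβ⟩
    rw [Ideal.submodule_span_eq] at hβ
    obtain ⟨A, B, hAB⟩ := exists_norm_eq hK hn hs β
    have hu' := absNorm_ramIdeal hK hn hs hu
    rw [show ramIdeal s u = Ideal.span {β} from hβ, Ideal.absNorm_span_singleton] at hu'
    have hpos : 0 ≤ Algebra.norm ℤ β := by nlinarith [sq_nonneg A, sq_nonneg B]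
    rw [show Algebra.norm ℤ β = (u : ℤ) by omega] at hAB
    obtain ⟨w, hw⟩ := hu
    have hu0 : 0 < u := Nat.pos_of_ne_zero fun e => hn.ne_zero (by rw [hw, e, zero_mul])
    by_cases hB : B = 0
    · subst hB
      left
      have hA : A.natAbs ^ 2 = 4 * u := by
        rw [← Int.natAbs_pow, show A ^ 2 = ((4 * u : ℕ) : ℤ) by push_cast; linarith]
        exact Int.natAbs_natCast _
      obtain ⟨k, hk⟩ : 2 ∣ A.natAbs := Nat.prime_two.dvd_of_dvd_pow ⟨2 * u, by rw [hA]; ring⟩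
      rw [hk] at hA
      have hk2 : u = k * k := by linarith
      have := (hn.squarefree_of_dvd ⟨w, hw⟩) k ⟨1, by rw [hk2, mul_one]⟩
      rw [hk2, Nat.isUnit_iff.mp this]
    · have hB1 : 1 ≤ B ^ 2 := by nlinarith [abs_pos.mpr hB, sq_abs B]
      have hw4 : w ≤ 4 := by
        have h1 : ((u * w : ℕ) : ℤ) ≤ 4 * u := by
          rw [← hw]
          nlinarith [sq_nonneg A]
        exact le_of_mul_le_mul_left (by rw [mul_comm u 4]; exact_mod_cast h1) hu0
      have hwodd : Odd w := (Nat.odd_mul.mp (hw ▸ hodd)).2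
      obtain rfl | rfl : w = 1 ∨ w = 3 := by
        obtain ⟨k, rfl⟩ := hwodd
        omega
      · right
        rw [hw, mul_one]
      · exfalso
        obtain ⟨A', rfl⟩ : (u : ℤ) ∣ A := by
          refine (Int.squarefree_natAbs.mp (by
            simpa using hn.squarefree_of_dvd ⟨3, hw⟩)).dvd_pow_iff_dvd two_ne_zero |>.mp
            ⟨4 - 3 * B ^ 2, ?_⟩
          rw [hw] at hAB
          push_cast at hAB
          linear_combination hAB
        rw [hw] at hAB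
        push_cast at hAB
        have h4 : (u : ℤ) * A' ^ 2 + 3 * B ^ 2 = 4 :=
          mul_left_cancel₀ (Int.natCast_ne_zero.mpr hu0.ne') (by linear_combination hAB)
        have hu2 : 2 ≤ u := by omega
        rcases eq_or_ne A' 0 with rfl | hA'
        · omega
        · nlinarith [abs_pos.mpr hA', sq_abs A']
  · rintro (rfl | rfl)
    · exact ⟨⟨1, by
        show ramIdeal s 1 = _
        rw [Ideal.submodule_span_eq, Ideal.span_singleton_one, Ideal.eq_top_iff_one]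
        exact Ideal.subset_span (by simp)⟩⟩
    · exact ⟨⟨s, by
        show ramIdeal s u = _
        rw [Ideal.submodule_span_eq, ramIdeal]
        exact Ideal.span_pair_eq_span_right_iff_dvd.mpr ⟨-s, by linear_combination hs⟩⟩⟩

/-- A quadratic field has a conjugation. -/
theorem exists_conj (hK : finrank ℚ K = 2) (hn : n ≠ 0) (hs : s ^ 2 = -(n : 𝓞 K)) :
    ∃ σ : K ≃ₐ[ℚ] K, σ • s = -s ∧ ∀ g : K ≃ₐ[ℚ] K, g = 1 ∨ g = σ := by
  haveI : Algebra.IsQuadraticExtension ℚ K := ⟨hK⟩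
  haveI : IsGalois ℚ K := ⟨⟩
  have hcard : Nat.card (K ≃ₐ[ℚ] K) = 2 := by rw [IsGalois.card_aut_eq_finrank, hK]
  obtain ⟨σ, hne, hall⟩ := (Nat.card_eq_two_iff' 1).mp hcard
  refine ⟨σ, ?_, fun g => (em (g = 1)).imp id (hall g)⟩
  have h : (σ • s) ^ 2 = s ^ 2 := by
    rw [← smul_pow', hs, smul_neg, show σ • (n : 𝓞 K) = n from map_natCast
      (MulSemiringAction.toRingHom (K ≃ₐ[ℚ] K) (𝓞 K) σ) n]
  rcases sq_eq_sq_iff_eq_or_eq_neg.mp h with h' | h'
  · exfalso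
    refine hne (AlgEquiv.ext fun x => ?_)
    obtain ⟨a, b, rfl⟩ := FA.ExceptionalIsCM.exists_coords hK
      (neg_lt_zero.mpr (Int.natCast_pos.mpr hn.bot_lt)) (coe_sqrt hs) x
    have hσs : σ (s : K) = (s : K) := congrArg (fun z : 𝓞 K => (z : K)) h'
    rw [AlgEquiv.one_apply, map_add, map_mul, map_ratCast, map_ratCast, hσs]
  · exact h'

/-- An ideal times its conjugate is principal. -/
theorem mk0_conj_mul (hK : finrank ℚ K = 2) {σ : K ≃ₐ[ℚ] K}
    (hσ : ∀ g : K ≃ₐ[ℚ] K, g = 1 ∨ g = σ) (I : (Ideal (𝓞 K))⁰) (J : (Ideal (𝓞 K))⁰)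
    (hJ : (J : Ideal (𝓞 K)) = σ • (I : Ideal (𝓞 K))) :
    ClassGroup.mk0 I * ClassGroup.mk0 J = 1 := by
  haveI : Algebra.IsQuadraticExtension ℚ K := ⟨hK⟩
  haveI : IsGalois ℚ K := ⟨⟩
  have hcard : Fintype.card (K ≃ₐ[ℚ] K) = 2 := by
    rw [← Nat.card_eq_fintype_card, IsGalois.card_aut_eq_finrank, hK]
  have hne : σ ≠ 1 := fun e => by
    haveI : Subsingleton (K ≃ₐ[ℚ] K) := ⟨fun a b => by
      rcases hσ a with ha | ha <;> rcases hσ b with hb | hb <;> simp [ha, hb, e]⟩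
    have := Fintype.card_le_one_iff_subsingleton.mpr ‹Subsingleton (K ≃ₐ[ℚ] K)›
    omega
  have huniv : (Finset.univ : Finset (K ≃ₐ[ℚ] K)) = {1, σ} :=
    Finset.ext fun g => by simpa using hσ g
  have hmap : (Ideal.relNorm (𝓞 ℚ) (I : Ideal (𝓞 K))).map (algebraMap (𝓞 ℚ) (𝓞 K)) =
      (I : Ideal (𝓞 K)) * J := by
    have hne0 : (I : Ideal (𝓞 K)) * J ≠ 0 :=
      mul_ne_zero (nonZeroDivisors.coe_ne_zero I) (nonZeroDivisors.coe_ne_zero J)
    symm
    refine FA.Ext.eq_of_dvd_of_absNorm_eq ?_ hne0 ?_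
    · rw [Ideal.dvd_iff_le, Ideal.map_relNorm, Ideal.span_le]
      rintro _ ⟨z, hz, rfl⟩
      have hz' : algebraMap (𝓞 ℚ) (𝓞 K) (Algebra.intNorm (𝓞 ℚ) (𝓞 K) z) = z * σ • z := by
        apply RingOfIntegers.coe_injective
        rw [← IsScalarTower.algebraMap_apply, IsScalarTower.algebraMap_apply (𝓞 ℚ) ℚ K,
          Algebra.algebraMap_intNorm (K := ℚ) (L := K), Algebra.norm_eq_prod_automorphisms,
          huniv, Finset.prod_pair hne.symm, map_mul]
        rfl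
      rw [Function.comp_apply, hz', hJ]
      exact Ideal.mul_mem_mul hz (Ideal.smul_mem_pointwise_smul σ z _ hz)
    · rw [map_mul, Ideal.absNorm_algebraMap, Ideal.absNorm_relNorm,
        ← IsFractionRing.finrank_eq (𝓞 ℚ) ℚ (𝓞 K) K, hK, sq, hJ,
        ← Ideal.absNorm_relNorm (𝓞 ℚ) (𝓞 K) (σ • (I : Ideal (𝓞 K))), Ideal.relNorm_smul,
        Ideal.absNorm_relNorm]
  rw [← map_mul, ClassGroup.mk0_eq_one_iff]
  show Submodule.IsPrincipal ((I : Ideal (𝓞 K)) * J : Ideal (𝓞 K))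
  haveI : IsPrincipalIdealRing (𝓞 ℚ) :=
    IsPrincipalIdealRing.of_surjective (Rat.ringOfIntegersEquiv.symm : ℤ →+* 𝓞 ℚ)
      Rat.ringOfIntegersEquiv.symm.surjective
  obtain ⟨g, hg⟩ :=
    (IsPrincipalIdealRing.principal (Ideal.relNorm (𝓞 ℚ) (I : Ideal (𝓞 K)))).principal
  refine ⟨⟨algebraMap (𝓞 ℚ) (𝓞 K) g, ?_⟩⟩
  rw [← hmap, hg, Ideal.submodule_span_eq, Ideal.submodule_span_eq, Ideal.map_span,
    Set.image_singleton]

end FA.RedeiReichardt
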