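import Fermat.Agent.RedeiReichardt.Norms
import Fermat.Agent.Tau.FieldGenus

/-!
# The theorem of Rédei and Reichardt

The classes killed by two are the images of the vectors, with kernel `{0, 1}`; an image is a square
exactly when the Rédei matrix kills the vector, by Legendre's theorem and the symbols at the primes
of `n`.
-/

set_option autoImplicit false
set_option linter.style.haveILetI false

noncomputable section

open NumberField Module Finset
open scoped Classical

namespace FA.RedeiReichardt

open FA.Monsky (OddPrimes classProd entry diagA indicator)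
open FA.QuadForms (Iso3)

variable {k : ℕ} {P : Fin k → ℕ}

theorem dvd_classProd_iff (hP : OddPrimes P) (v : Fin k → ZMod 2) (j : Fin k) :
    P j ∣ classProd P v ↔ v j = 1 := by
  refine ⟨fun h => ?_, fun h => ?_⟩
  · obtain ⟨i, -, hi⟩ := ((hP.prime j).prime.dvd_finsetProd_iff _).mp h
    by_cases hv : v i = 1
    · rw [if_pos hv] at hi
      rwa [hP.injective ((Nat.prime_dvd_prime_iff_eq (hP.prime j) (hP.prime i)).mp hi)]
    · rw [if_neg hv] at hi
      exact absurd (Nat.dvd_one.mp hi) (hP.prime j).ne_one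
  · exact dvd_trans (by rw [if_pos h]) (Finset.dvd_prod_of_mem _ (mem_univ j))

theorem classProd_dvd (v : Fin k → ZMod 2) : classProd P v ∣ ∏ i, P i :=
  Finset.prod_dvd_prod_of_dvd _ _ fun i _ => by split_ifs <;> simp

theorem indicator_classProd (hP : OddPrimes P) (v : Fin k → ZMod 2) :
    indicator P (classProd P v) = v := funext fun j => by
  rw [indicator]
  simp only [dvd_classProd_iff hP]
  generalize v j = z
  revert z
  decide

theorem classProd_injective (hP : OddPrimes P) : Function.Injective (classProd P) :=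
  Function.LeftInverse.injective (indicator_classProd hP)

theorem classProd_zero : classProd P 0 = 1 :=
  Finset.prod_eq_one fun _ _ => if_neg zero_ne_one

theorem classProd_one : classProd P 1 = ∏ i, P i :=
  Finset.prod_congr rfl fun _ _ => if_pos rfl

theorem classProd_mul_compl (v : Fin k → ZMod 2) :
    classProd P v * classProd P (1 + v) = ∏ i, P i := by
  rw [classProd, classProd, ← Finset.prod_mul_distrib]
  refine Finset.prod_congr rfl fun i _ => ?_
  simp only [Pi.add_apply, Pi.one_apply]
  rcases (show ∀ z : ZMod 2, z = 0 ∨ z = 1 by decide) (v i) with e | e <;>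
    simp [e, show (1 : ZMod 2) + 1 = 0 by decide]

theorem classProd_pos (hP : OddPrimes P) (v : Fin k → ZMod 2) : 0 < classProd P v :=
  Finset.prod_pos fun i _ => by split_ifs; exacts [(hP.prime i).pos, one_pos]

theorem primes_of_classProd (hP : OddPrimes P) (v : Fin k → ZMod 2) :
    ∀ q : ℕ, q.Prime → q ∣ classProd P v → ∃ j, q = P j := fun q hq hd => by
  obtain ⟨j, -, hj⟩ := (hq.prime.dvd_finsetProd_iff _).mp (hd.trans (classProd_dvd v))
  exact ⟨j, (Nat.prime_dvd_prime_iff_eq hq (hP.prime j)).mp hj⟩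

/-- The Rédei matrix. -/
def redei (P : Fin k → ℕ) [∀ i, NeZero (P i)] : Matrix (Fin k) (Fin k) (ZMod 2) :=
  Matrix.of fun i j => if i = j then diagA P i else entry P i j

theorem redei_mulVec [∀ i, NeZero (P i)] (v : Fin k → ZMod 2) (i : Fin k) :
    (redei P).mulVec v i =
      (∑ j ∈ univ.erase i, v j * entry P i j) + diagA P i * v i := by
  rw [Matrix.mulVec, dotProduct, ← Finset.sum_erase_add _ _ (mem_univ i)]
  congr 1
  · refine Finset.sum_congr rfl fun j hj => ?_
    rw [redei, Matrix.of_apply, if_neg (Finset.ne_of_mem_erase hj).symm, mul_comm]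
  · rw [redei, Matrix.of_apply, if_pos rfl]

/-- A Jacobi symbol at a prime is one exactly at squares. -/
theorem jacobi_eq_one_iff {p : ℕ} [Fact p.Prime] {x : ℕ} (hx : ¬ p ∣ x) :
    jacobiSym (x : ℤ) p = 1 ↔ FA.Monsky.sym p (x : ZMod p) = 0 := by
  rw [← jacobiSym.legendreSym.to_jacobiSym, legendreSym.eq_one_iff p (by
    rw [Int.cast_natCast, Ne, ZMod.natCast_eq_zero_iff]
    exact hx), Int.cast_natCast]
  exact ⟨FA.Monsky.sym_of_isSquare, FA.Monsky.sym_eq_zero⟩

/-- **The symbol at `P i`** is one exactly when the `i`th coordinate of `A v` vanishes. -/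
theorem sym_eq_one_iff (hP : OddPrimes P) [∀ i, NeZero (P i)] (v : Fin k → ZMod 2) (i : Fin k) :
    FA.QuadForms.sym (P i) (-((∏ j, P j : ℕ) : ℤ)) (classProd P v : ℤ) = 1 ↔
      (redei P).mulVec v i = 0 := by
  haveI := Fact.mk (hP.prime i)
  have hpZ : Prime ((P i : ℕ) : ℤ) := Nat.prime_iff_prime_int.mp (hP.prime i)
  set u := classProd P v with hu
  set w := classProd P (1 + v) with hw
  have huw : u * w = ∏ j, P j := classProd_mul_compl v
  have hsq : Squarefree (u * w) := by rw [huw]; exact hP.squarefree_prod univ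
  rw [redei_mulVec, FA.QuadForms.sym_odd (hP.prime i) (hP.odd i), FA.QuadForms.symOdd, ← huw]
  rcases (show ∀ z : ZMod 2, z = 0 ∨ z = 1 by decide) (v i) with hv | hv
  · have hnu : ¬ P i ∣ u := fun h => by
      rw [dvd_classProd_iff hP, hv] at h
      exact zero_ne_one h
    obtain ⟨w', hw'⟩ : P i ∣ w :=
      (dvd_classProd_iff hP _ i).mpr (by rw [Pi.add_apply, hv, Pi.one_apply, add_zero])
    have hnw : ¬ P i ∣ u * w' := fun h => (hP.prime i).ne_one (Nat.isUnit_iff.mp
      (hsq (P i) (by rw [hw', mul_left_comm]; exact mul_dvd_mul_left _ h)))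
    obtain ⟨a1, a2⟩ := FA.QuadForms.unitPart_prime_mul (p := P i) (u := -((u * w' : ℕ) : ℤ))
      (by rw [dvd_neg, Int.natCast_dvd_natCast]; exact hnw)
    obtain ⟨b1, b2⟩ := FA.QuadForms.unitPart_of_not_dvd (p := P i) (a := (u : ℤ))
      (by rw [Int.natCast_dvd_natCast]; exact hnu)
    rw [show -((u * w : ℕ) : ℤ) = ((P i : ℕ) : ℤ) * -((u * w' : ℕ) : ℤ) by
      rw [hw']; push_cast; ring, a1, a2, b1, b2, mul_zero, pow_zero, pow_zero, one_mul, one_mul,
      pow_one, jacobi_eq_one_iff hnu, hP.sym_cast i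
        ((hP.squarefree_prod univ).squarefree_of_dvd (classProd_dvd v))
        (primes_of_classProd hP v) hnu, indicator_classProd hP, hv, mul_zero, add_zero]
  · have hnw : ¬ P i ∣ w := fun h => by
      rw [dvd_classProd_iff hP, Pi.add_apply, hv, Pi.one_apply] at h
      exact absurd h (by decide)
    obtain ⟨u', hu'⟩ : P i ∣ u := (dvd_classProd_iff hP v i).mpr hv
    have hnu : ¬ P i ∣ u' * w := fun h => (hP.prime i).ne_one (Nat.isUnit_iff.mp
      (hsq (P i) (by rw [hu', mul_assoc]; exact mul_dvd_mul_left _ h)))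
    obtain ⟨a1, a2⟩ := FA.QuadForms.unitPart_prime_mul (p := P i) (u := -((u' * w : ℕ) : ℤ))
      (by rw [dvd_neg, Int.natCast_dvd_natCast]; exact hnu)
    obtain ⟨b1, b2⟩ := FA.QuadForms.unitPart_prime_mul (p := P i) (u := ((u' : ℕ) : ℤ))
      (by rw [Int.natCast_dvd_natCast]; exact fun h => hnu (h.mul_right _))
    have hsquare : jacobiSym ((u' : ℤ) ^ 2) (P i) = 1 := by
      rw [jacobiSym.sq_one']
      rw [Int.gcd_natCast_natCast]
      exact Nat.coprime_comm.mp ((hP.prime i).coprime_iff_not_dvd.mpr fun h =>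
        hnu (h.mul_right _))
    rw [show -((u * w : ℕ) : ℤ) = ((P i : ℕ) : ℤ) * -((u' * w : ℕ) : ℤ) by
      rw [hu']; push_cast; ring,
      show (u : ℤ) = ((P i : ℕ) : ℤ) * (u' : ℤ) by rw [hu']; push_cast; rfl,
      a1, a2, b1, b2, mul_one, pow_one, pow_one, pow_one, ← jacobiSym.mul_left,
      ← jacobiSym.mul_left, show (-1 : ℤ) * -((u' * w : ℕ) : ℤ) * (u' : ℤ) = (u' : ℤ) ^ 2 * (w : ℤ)
        by push_cast; ring,
      jacobiSym.mul_left, hsquare, one_mul, jacobi_eq_one_iff hnw, hP.sym_cast i
        ((hP.squarefree_prod univ).squarefree_of_dvd (classProd_dvd _))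
        (primes_of_classProd hP _) hnw, indicator_classProd hP, hv, mul_one, diagA,
      ← Finset.sum_add_distrib]
    refine Iff.of_eq (congrArg (· = 0) (Finset.sum_congr rfl fun j _ => ?_))
    rw [Pi.add_apply, Pi.one_apply]
    ring

/-- The conic has a rational point exactly when `A v = 0`. -/
theorem iso3_iff_mulVec (hP : OddPrimes P) [∀ i, NeZero (P i)] (h4 : (∏ i, P i) % 4 = 3)
    (v : Fin k → ZMod 2) :
    Iso3 (-((∏ i, P i : ℕ) : ℚ)) (classProd P v : ℚ) ↔ (redei P).mulVec v = 0 := by
  set n := ∏ i, P i with hn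
  set u := classProd P v with hu
  have hn0 : (-(n : ℤ)) ≠ 0 := by omega
  have hupos : 0 < u := classProd_pos hP v
  have hu0 : (u : ℤ) ≠ 0 := by omega
  constructor
  · intro h
    funext i
    haveI := Fact.mk (hP.prime i)
    refine (sym_eq_one_iff hP v i).mp (FA.QuadForms.sym_eq_one_of_iso hn0 hu0 ?_)
    obtain ⟨x, y, z, hne, he⟩ := h
    refine ⟨(x : ℚ_[P i]), (y : ℚ_[P i]), (z : ℚ_[P i]), ?_, ?_⟩
    · simpa using hne
    · have := congrArg (fun t : ℚ => (t : ℚ_[P i])) he
      push_cast [hn, hu] at this ⊢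
      exact this
  · intro h
    have hloc : FA.QuadForms.LocalIso3 (-(n : ℤ)) (u : ℤ) := by
      refine ⟨⟨0, 1, Real.sqrt u, Or.inr (Or.inl one_ne_zero), ?_⟩, fun p hp => ?_⟩
      · push_cast
        rw [Real.sq_sqrt (Nat.cast_nonneg u)]
        ring
      by_cases hp2 : p = 2
      · subst hp2
        have hodd : u % 2 = 1 := Nat.odd_iff.mp (hP.odd_prod.of_dvd_nat (classProd_dvd v))
        by_cases h8 : (8 : ℤ) ∣ -(n : ℤ) - 1
        · obtain ⟨z, hz⟩ := FA.QuadForms.isSquare_two_of_modEq h8
          exact ⟨1, 0, z, Or.inl one_ne_zero, by rw [hz]; ring⟩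
        · obtain ⟨z, hz⟩ := FA.QuadForms.isSquare_two_of_modEq
            (n := -(n : ℤ) + 4 * (u : ℤ)) (by omega)
          refine ⟨1, 2, z, Or.inl one_ne_zero, ?_⟩
          push_cast at hz ⊢
          linear_combination hz
      · by_cases hpn : p ∣ n
        · obtain ⟨i, -, hi⟩ := (hp.out.prime.dvd_finsetProd_iff _).mp hpn
          obtain rfl := (Nat.prime_dvd_prime_iff_eq hp.out (hP.prime i)).mp hi
          exact FA.QuadForms.iso3_of_sym hp2 hn0 hu0
            ((sym_eq_one_iff hP v i).mpr (congrFun h i))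
        · exact FA.QuadForms.iso3_of_units hp2
            (by rw [dvd_neg, Int.natCast_dvd_natCast]; exact hpn)
            (by rw [Int.natCast_dvd_natCast]; exact fun h => hpn (h.trans (classProd_dvd v)))
    obtain ⟨x, y, z, hne, he⟩ := FA.QuadForms.iso3_of_local _ _ hn0 hu0 hloc
    exact ⟨x, y, z, hne, by push_cast at he ⊢; exact he⟩

section Classes

variable {K : Type*} [Field K] [NumberField K] {s : 𝓞 K}

/-- The class of a vector. -/
def classHom (hP : OddPrimes P) (hs : s ^ 2 = -((∏ i, P i : ℕ) : 𝓞 K)) :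
    (Fin k → ZMod 2) →+ Additive (ClassGroup (𝓞 K)) :=
  AddMonoidHom.mk' (fun v => Additive.ofMul (ramClass s (classProd P v))) fun v w => by
    have hsq := hP.squarefree_prod univ
    have e : ∀ z z' : ZMod 2, ∀ x : ℕ,
        (if z = 1 then x else 1) =
          (if z * z' = 1 then x else 1) * (if z * (1 + z') = 1 then x else 1) := by
      intro z z' x
      rcases (show ∀ z : ZMod 2, z = 0 ∨ z = 1 by decide) z with rfl | rfl <;>
        rcases (show ∀ z : ZMod 2, z = 0 ∨ z = 1 by decide) z' with rfl | rfl <;>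
        simp [show (1 : ZMod 2) + 1 = 0 by decide]
    have e2 : ∀ z z' : ZMod 2, ∀ x : ℕ,
        (if z + z' = 1 then x else 1) =
          (if z * (1 + z') = 1 then x else 1) * (if z' * (1 + z) = 1 then x else 1) := by
      intro z z' x
      rcases (show ∀ z : ZMod 2, z = 0 ∨ z = 1 by decide) z with rfl | rfl <;>
        rcases (show ∀ z : ZMod 2, z = 0 ∨ z = 1 by decide) z' with rfl | rfl <;>
        simp [show (1 : ZMod 2) + 1 = 0 by decide]
    have hv : classProd P v = classProd P (v * w) * classProd P (v * (1 + w)) := by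
      simp only [classProd, ← Finset.prod_mul_distrib, Pi.mul_apply, Pi.add_apply, Pi.one_apply]
      exact Finset.prod_congr rfl fun i _ => e _ _ _
    have hw : classProd P w = classProd P (w * v) * classProd P (w * (1 + v)) := by
      simp only [classProd, ← Finset.prod_mul_distrib, Pi.mul_apply, Pi.add_apply, Pi.one_apply]
      exact Finset.prod_congr rfl fun i _ => e _ _ _
    rw [mul_comm w v] at hw
    have hvw : classProd P (v + w) = classProd P (v * (1 + w)) * classProd P (w * (1 + v)) := by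
      simp only [classProd, ← Finset.prod_mul_distrib, Pi.mul_apply, Pi.add_apply, Pi.one_apply]
      exact Finset.prod_congr rfl fun i _ => e2 _ _ _
    rw [← ofMul_mul, hv, hw, hvw, ramClass_mul hsq hs]
    simp only [classProd, ← Finset.prod_mul_distrib]
    refine Finset.prod_dvd_prod_of_dvd _ _ fun i _ => ?_
    simp only [Pi.mul_apply, Pi.add_apply, Pi.one_apply]
    rcases (show ∀ z : ZMod 2, z = 0 ∨ z = 1 by decide) (v i) with e0 | e0 <;>
      rcases (show ∀ z : ZMod 2, z = 0 ∨ z = 1 by decide) (w i) with e1 | e1 <;>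
      simp [e0, e1, show (1 : ZMod 2) + 1 = 0 by decide]

variable (hP : OddPrimes P) (hK : finrank ℚ K = 2) (h4 : (∏ i, P i) % 4 = 3)
  (h3 : 3 < ∏ i, P i) (hs : s ^ 2 = -((∏ i, P i : ℕ) : 𝓞 K))

include hP in
theorem primeFactors_prod : (∏ i, P i).primeFactors.card = k := by
  rw [show (∏ i, P i) = ∏ q ∈ univ.image P, q from
    (Finset.prod_image (f := fun q => q) hP.injective.injOn).symm,
    Nat.primeFactors_prod (fun q hq => by
      obtain ⟨i, -, rfl⟩ := mem_image.mp hq
      exact hP.prime i), Finset.card_image_of_injective _ hP.injective, Finset.card_univ,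
    Fintype.card_fin]

include hP hK h4 h3 hs in
theorem card_two_torsion_prod :
    Nat.card {C : ClassGroup (𝓞 K) // C * C = 1} = 2 ^ (k - 1) := by
  have h := FA.FieldClassBound.card_two_torsion_eq hK (d := -((∏ i, P i : ℕ) : ℤ))
    (Int.squarefree_natAbs.mp (by
      rw [Int.natAbs_neg, Int.natAbs_natCast]
      exact hP.squarefree_prod univ)) (by omega) (coe_sqrt hs)
  rw [h, FA.FieldClassBound.discK, if_pos (by omega), Int.natAbs_neg, Int.natAbs_natCast,
    primeFactors_prod hP]

include hP hK h4 h3 hs in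
theorem ker_classHom (v : Fin k → ZMod 2) : classHom hP hs v = 0 ↔ v = 0 ∨ v = 1 := by
  show Additive.ofMul _ = 0 ↔ _
  rw [ofMul_eq_zero, ramClass_eq_one_iff hK (hP.squarefree_prod univ) hP.odd_prod h3 hs
    (classProd_dvd v), ← classProd_zero (P := P), ← classProd_one,
    (classProd_injective hP).eq_iff, (classProd_injective hP).eq_iff]

include hP hK h4 h3 hs in
/-- The classes killed by two are the classes of vectors. -/
theorem range_classHom (C : ClassGroup (𝓞 K)) :
    C * C = 1 ↔ ∃ v, classHom hP hs v = Additive.ofMul C := by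
  have hk : 0 < k := Nat.pos_of_ne_zero fun e => by
    subst e
    simp at h3
  have h01 : (0 : Fin k → ZMod 2) ≠ 1 := fun e => zero_ne_one (congrFun e ⟨0, hk⟩)
  have hker : Nat.card (classHom hP hs).ker = 2 := by
    rw [show Nat.card (classHom hP hs).ker = Nat.card ({0, 1} : Set (Fin k → ZMod 2)) from
      Nat.card_congr (Equiv.subtypeEquivRight fun v => by
        rw [AddMonoidHom.mem_ker, ker_classHom hP hK h4 h3 hs]
        simp), Nat.card_coe_set_eq, Set.ncard_pair h01]
  have hrange : Nat.card (classHom hP hs).range = 2 ^ (k - 1) := by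
    have h := (classHom hP hs).ker.card_mul_index
    rw [AddSubgroup.index_ker, hker, Nat.card_fun, Nat.card_fin, Nat.card_zmod] at h
    have e : 2 ^ k = 2 * 2 ^ (k - 1) := by rw [← pow_succ', Nat.sub_add_cancel hk]
    omega
  set S : Set (ClassGroup (𝓞 K)) := {C | ∃ v, classHom hP hs v = Additive.ofMul C}
  set T : Set (ClassGroup (𝓞 K)) := {C | C * C = 1}
  have hST : S ⊆ T := by
    rintro C ⟨v, hv⟩
    have : C = ramClass s (classProd P v) := Additive.ofMul.injective hv.symm
    rw [this]
    exact ramClass_sq (hP.squarefree_prod univ) hs (classProd_dvd v)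
  have hSc : S.ncard = 2 ^ (k - 1) := by
    rw [← Nat.card_coe_set_eq, ← hrange]
    exact Nat.card_congr (Additive.ofMul.subtypeEquiv fun _ => Iff.rfl)
  have hT : T.ncard = 2 ^ (k - 1) := by
    rw [← Nat.card_coe_set_eq]
    exact card_two_torsion_prod hP hK h4 h3 hs
  have hEq : S = T := Set.eq_of_subset_of_ncard_le hST (by rw [hSc, hT])
  exact (Set.ext_iff.mp hEq C).symm

include hP hK h4 h3 hs in
/-- **Rédei and Reichardt.** -/
theorem card_square_two_torsion [∀ i, NeZero (P i)] :
    2 * Nat.card {C : ClassGroup (𝓞 K) // C * C = 1 ∧ IsSquare C} =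
      Nat.card {v : Fin k → ZMod 2 // (redei P).mulVec v = 0} := by
  have hk : 0 < k := Nat.pos_of_ne_zero fun e => by
    subst e
    simp at h3
  have h01 : (0 : Fin k → ZMod 2) ≠ 1 := fun e => zero_ne_one (congrFun e ⟨0, hk⟩)
  have hiff : ∀ v, IsSquare (ramClass s (classProd P v)) ↔ (redei P).mulVec v = 0 := fun v => by
    rw [isSquare_ramClass_iff hK (hP.squarefree_prod univ) hs (classProd_dvd v)]
    exact iso3_iff_mulVec hP h4 v
  set Z := (Matrix.mulVecLin (redei P)).toAddMonoidHom.ker with hZ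
  set ψ := (classHom hP hs).comp Z.subtype with hψ
  have hone : (redei P).mulVec 1 = 0 := (hiff 1).mp (by
    rw [classProd_one, (ramClass_eq_one_iff hK (hP.squarefree_prod univ) hP.odd_prod h3 hs
      dvd_rfl).mpr (Or.inr rfl)]
    exact IsSquare.one)
  have hker : Nat.card ψ.ker = 2 := by
    let z0 : Z := 0
    let z1 : Z := ⟨1, hone⟩
    rw [show Nat.card ψ.ker = Nat.card ({z0, z1} : Set Z) from
      Nat.card_congr (Equiv.subtypeEquivRight fun z => by
        show classHom hP hs z.1 = 0 ↔ z ∈ ({z0, z1} : Set Z)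
        rw [ker_classHom hP hK h4 h3 hs]
        rw [Set.mem_insert_iff, Set.mem_singleton_iff, Subtype.ext_iff, Subtype.ext_iff]
        exact Iff.rfl), Nat.card_coe_set_eq,
      Set.ncard_pair fun e => h01 (congrArg Subtype.val e)]
  have h := ψ.ker.card_mul_index
  rw [AddSubgroup.index_ker, hker] at h
  rw [show Nat.card {C : ClassGroup (𝓞 K) // C * C = 1 ∧ IsSquare C} = Nat.card ψ.range from
    Nat.card_congr (Additive.ofMul.subtypeEquiv fun C => ?_), h]
  · exact Nat.card_congr (Equiv.subtypeEquivRight fun v => Iff.rfl)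
  · constructor
    · rintro ⟨h2, hsq⟩
      obtain ⟨v, hv⟩ := (range_classHom hP hK h4 h3 hs C).mp h2
      refine ⟨⟨v, ?_⟩, hv⟩
      have hC : ramClass s (classProd P v) = C := Additive.ofMul.injective hv
      exact (hiff v).mp (hC ▸ hsq)
    · rintro ⟨⟨v, hv⟩, he⟩
      have hC : ramClass s (classProd P v) = C := Additive.ofMul.injective he
      rw [← hC]
      exact ⟨ramClass_sq (hP.squarefree_prod univ) hs (classProd_dvd v), (hiff v).mpr hv⟩

end Classes

end FA.RedeiReichardt
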