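import Fermat.Agent.RedeiReichardt.Ideals
import Fermat.Agent.QuadForms.Ternary

/-!
# A ramified class is a square exactly when the divisor is a norm

If `γ σγ = u m²` and `b = (γ) + (m) (u, s)` then `(γ) σb = (m) (u, s) b`, so the class of
`(u, s)` is a square; conversely a square class makes `u` a norm by absolute norms. Norms are the
values of `x² + n y²`, so the question is whether `-n x² + u y² = z²` has a rational point.
-/

set_option autoImplicit false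
set_option linter.style.haveILetI false

noncomputable section

open NumberField Module
open scoped Classical Pointwise nonZeroDivisors

namespace FA.RedeiReichardt

open FA.QuadForms (Iso3)

variable {K : Type*} [Field K] [NumberField K] {n : ℕ} {s : 𝓞 K}

/-- The norm in coordinates. -/
theorem norm_coords (hK : finrank ℚ K = 2) (hn : n ≠ 0) (hs : s ^ 2 = -(n : 𝓞 K)) (a b : ℚ) :
    Algebra.norm ℚ ((a : K) + (b : K) * (s : K)) = a ^ 2 + n * b ^ 2 := by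
  rw [FA.ExceptionalIsCM.norm_add_mul hK (neg_lt_zero.mpr (Int.natCast_pos.mpr hn.bot_lt))
    (coe_sqrt hs)]
  push_cast
  ring

theorem exists_coords_sqrt (hK : finrank ℚ K = 2) (hn : n ≠ 0) (hs : s ^ 2 = -(n : 𝓞 K)) (β : K) :
    ∃ a b : ℚ, β = (a : K) + (b : K) * (s : K) :=
  FA.ExceptionalIsCM.exists_coords hK (neg_lt_zero.mpr (Int.natCast_pos.mpr hn.bot_lt))
    (coe_sqrt hs) β

/-- Norms are the rational points of the conic. -/
theorem exists_norm_iff_iso3 (hK : finrank ℚ K = 2) (hn : n ≠ 0) (hs : s ^ 2 = -(n : 𝓞 K))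
    (u : ℕ) : (∃ β : K, Algebra.norm ℚ β = (u : ℚ)) ↔ Iso3 (-(n : ℚ)) (u : ℚ) := by
  constructor
  · rintro ⟨β, hβ⟩
    obtain ⟨a, b, rfl⟩ := exists_coords_sqrt hK hn hs β
    rw [norm_coords hK hn hs] at hβ
    exact ⟨b, 1, a, Or.inr (Or.inl one_ne_zero), by linear_combination -hβ⟩
  · rintro ⟨x, y, z, hne, he⟩
    have hn0 : (0 : ℚ) < n := Nat.cast_pos.mpr hn.bot_lt
    have hy : y ≠ 0 := by
      rintro rfl
      have h1 : (n : ℚ) * x ^ 2 + z ^ 2 = 0 := by linear_combination -he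
      have h2 := (add_eq_zero_iff_of_nonneg (by positivity) (sq_nonneg z)).mp h1
      have hx : x = 0 := pow_eq_zero_iff two_ne_zero |>.mp
        ((mul_eq_zero.mp h2.1).resolve_left hn0.ne')
      have hz : z = 0 := pow_eq_zero_iff two_ne_zero |>.mp h2.2
      simp [hx, hz] at hne
    refine ⟨((z / y : ℚ) : K) + ((x / y : ℚ) : K) * (s : K), ?_⟩
    rw [norm_coords hK hn hs]
    field_simp
    linear_combination -he

theorem norm_nonneg_rat (hK : finrank ℚ K = 2) (hn : n ≠ 0) (hs : s ^ 2 = -(n : 𝓞 K)) (β : K) :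
    0 ≤ Algebra.norm ℚ β := by
  obtain ⟨a, b, rfl⟩ := exists_coords_sqrt hK hn hs β
  rw [norm_coords hK hn hs]
  positivity

/-- A square class makes the divisor a norm. -/
theorem exists_norm_of_isSquare (hK : finrank ℚ K = 2) (hn : Squarefree n)
    (hs : s ^ 2 = -(n : 𝓞 K)) {u : ℕ} (hu : u ∣ n) (h : IsSquare (ramClass s u)) :
    ∃ β : K, Algebra.norm ℚ β = (u : ℚ) := by
  obtain ⟨C, hC⟩ := h
  obtain ⟨J, rfl⟩ := ClassGroup.mk0_surjective C
  rw [ramClass_eq hn.ne_zero hs, ← map_mul, ClassGroup.mk0_eq_mk0_iff] at hC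
  obtain ⟨x, y, hx, -, hxy⟩ := hC
  have h := congrArg Ideal.absNorm hxy
  simp only [map_mul, Submonoid.coe_mul, Ideal.absNorm_span_singleton,
    absNorm_ramIdeal hK hn hs hu] at h
  set N := Ideal.absNorm (J : Ideal (𝓞 K))
  have habs : ∀ z : 𝓞 K, ((Algebra.norm ℤ z).natAbs : ℚ) = Algebra.norm ℚ (z : K) := fun z => by
    have h0 := norm_nonneg_rat hK hn.ne_zero hs (z : K)
    rw [← Algebra.coe_norm_int] at h0 ⊢
    rw [Nat.cast_natAbs, abs_of_nonneg (by exact_mod_cast h0)]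
  have hx0 : Algebra.norm ℚ (x : K) ≠ 0 :=
    Algebra.norm_ne_zero_iff.mpr (RingOfIntegers.coe_ne_zero_iff.mpr hx)
  refine ⟨algebraMap ℚ K (N : ℚ) * ((y : K) / (x : K)), ?_⟩
  have h2 : Algebra.norm ℚ ((y : K) / (x : K)) * Algebra.norm ℚ (x : K) =
      Algebra.norm ℚ (y : K) := by
    rw [← map_mul, div_mul_cancel₀ _ (RingOfIntegers.coe_ne_zero_iff.mpr hx)]
  rw [map_mul, Algebra.norm_algebraMap, hK, eq_div_of_mul_eq hx0 h2, ← mul_div_assoc,
    div_eq_iff hx0]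
  have h' : ((Algebra.norm ℤ x).natAbs : ℚ) * u = (Algebra.norm ℤ y).natAbs * ((N : ℚ) * N) := by
    exact_mod_cast h
  rw [habs, habs] at h'
  linear_combination -h'

/-- A norm makes the class a square. -/
theorem isSquare_of_exists_norm (hK : finrank ℚ K = 2) (hn : Squarefree n)
    (hs : s ^ 2 = -(n : 𝓞 K)) {u : ℕ} (hu : u ∣ n) {β : K} (hβ : Algebra.norm ℚ β = (u : ℚ)) :
    IsSquare (ramClass s u) := by
  obtain ⟨a, b, rfl⟩ := exists_coords_sqrt hK hn.ne_zero hs β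
  rw [norm_coords hK hn.ne_zero hs] at hβ
  set m : ℕ := a.den * b.den with hm
  set A : ℤ := a.num * b.den with hA
  set B : ℤ := b.num * a.den with hB
  have hm0 : m ≠ 0 := mul_ne_zero a.den_nz b.den_nz
  have heq : A ^ 2 + (n : ℤ) * B ^ 2 = (u : ℤ) * (m : ℤ) ^ 2 := by
    have e : ((A ^ 2 + (n : ℤ) * B ^ 2 : ℤ) : ℚ) = (((u : ℤ) * (m : ℤ) ^ 2 : ℤ) : ℚ) := by
      have ha := Rat.mul_den_eq_num a
      have hb := Rat.mul_den_eq_num b
      simp only [hA, hB, hm]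
      push_cast
      rw [← ha, ← hb]
      linear_combination ((a.den : ℚ) * b.den) ^ 2 * hβ
    exact_mod_cast e
  obtain ⟨σ, hσs, hσ⟩ := exists_conj hK hn.ne_zero hs
  set γ : 𝓞 K := (A : 𝓞 K) + (B : 𝓞 K) * s with hγ
  set f := MulSemiringAction.toRingHom (K ≃ₐ[ℚ] K) (𝓞 K) σ with hf
  have hfs : f s = -s := hσs
  have hγσ : γ * f γ = (u : 𝓞 K) * (m : 𝓞 K) ^ 2 := by
    rw [hγ, map_add, map_mul, map_intCast, map_intCast, hfs]
    have e := congrArg (fun z : ℤ => (z : 𝓞 K)) heq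
    push_cast at e
    linear_combination e - (B : 𝓞 K) ^ 2 * hs
  set 𝔞 := ramIdeal s u with h𝔞
  have hsq : 𝔞 ^ 2 = Ideal.span {(u : 𝓞 K)} := ramIdeal_sq hn hs hu
  have h𝔞σ : 𝔞.map f = 𝔞 := by
    rw [h𝔞, ramIdeal, Ideal.map_span, Set.image_pair, map_natCast, hfs, Ideal.span_insert,
      Ideal.span_singleton_neg, ← Ideal.span_insert]
  set 𝔟 := Ideal.span {γ} ⊔ Ideal.span {(m : 𝓞 K)} * 𝔞 with h𝔟
  have key : Ideal.span {γ} * 𝔟.map f = Ideal.span {(m : 𝓞 K)} * (𝔞 * 𝔟) := by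
    rw [h𝔟, Ideal.map_sup, Ideal.map_mul, h𝔞σ, Ideal.map_span, Ideal.map_span,
      Set.image_singleton, Set.image_singleton, map_natCast, Ideal.mul_sup, Ideal.mul_sup,
      Ideal.mul_sup, Ideal.span_singleton_mul_span_singleton, hγσ,
      show Ideal.span {(u : 𝓞 K) * (m : 𝓞 K) ^ 2} =
        Ideal.span {(m : 𝓞 K)} * (𝔞 * (Ideal.span {(m : 𝓞 K)} * 𝔞)) by
        rw [← mul_assoc 𝔞, mul_comm 𝔞 (Ideal.span {(m : 𝓞 K)}), mul_assoc (Ideal.span {(m : 𝓞 K)}),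
          ← sq, hsq, Ideal.span_singleton_mul_span_singleton,
          Ideal.span_singleton_mul_span_singleton]
        congr 2
        ring, sup_comm]
    congr 1
    ac_rfl
  have h𝔞0 := ramIdeal_ne hn.ne_zero hs u
  have h𝔟0 : 𝔟 ≠ ⊥ := fun h => by
    rw [h𝔟, sup_eq_bot_iff, ← Ideal.zero_eq_bot, mul_eq_zero] at h
    rcases h.2 with h | h
    · rw [Ideal.zero_eq_bot, Ideal.span_singleton_eq_bot, Nat.cast_eq_zero] at h
      exact hm0 h
    · exact h𝔞0 h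
  have hγ0 : γ ≠ 0 := fun h => by
    rw [h, zero_mul, eq_comm, mul_eq_zero, pow_eq_zero_iff two_ne_zero, Nat.cast_eq_zero,
      Nat.cast_eq_zero] at hγσ
    rcases hγσ with h' | h'
    · exact hn.ne_zero (Nat.eq_zero_of_zero_dvd (h' ▸ hu))
    · exact hm0 h'
  have hmap : 𝔟.map f = σ • 𝔟 := rfl
  set I : (Ideal (𝓞 K))⁰ := ⟨𝔟, mem_nonZeroDivisors_iff_ne_zero.mpr h𝔟0⟩ with hI
  set J : (Ideal (𝓞 K))⁰ := ⟨σ • 𝔟, mem_nonZeroDivisors_iff_ne_zero.mpr fun h =>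
    h𝔟0 (by rw [← inv_smul_smul σ 𝔟, h, Ideal.zero_eq_bot, Ideal.smul_bot])⟩ with hJ
  have h1 := mk0_conj_mul hK hσ I J rfl
  have h2 : ClassGroup.mk0 J = ramClass s u * ClassGroup.mk0 I := by
    rw [ramClass_eq hn.ne_zero hs, ← map_mul, ClassGroup.mk0_eq_mk0_iff]
    exact ⟨γ, (m : 𝓞 K), hγ0, Nat.cast_ne_zero.mpr hm0, by rw [← hmap] at *; exact key⟩
  refine ⟨(ClassGroup.mk0 I)⁻¹, ?_⟩
  rw [h2] at h1
  rw [← mul_inv_rev, eq_inv_iff_mul_eq_one, ← h1]
  ac_rfl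

/-- **The criterion.** -/
theorem isSquare_ramClass_iff (hK : finrank ℚ K = 2) (hn : Squarefree n)
    (hs : s ^ 2 = -(n : 𝓞 K)) {u : ℕ} (hu : u ∣ n) :
    IsSquare (ramClass s u) ↔ Iso3 (-(n : ℚ)) (u : ℚ) := by
  rw [← exists_norm_iff_iso3 hK hn.ne_zero hs]
  exact ⟨exists_norm_of_isSquare hK hn hs hu, fun ⟨_, h⟩ => isSquare_of_exists_norm hK hn hs hu h⟩

end FA.RedeiReichardt
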